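import Mathlib

set_option autoImplicit false

namespace Fermat.Agent.S10

open Polynomial NumberField Ideal

/-- If a polynomial over `ℤ` maps to zero modulo `q`, it is `q` times a polynomial. -/
theorem h68_exists_eq_C_mul_of_map_eq_zero (q : ℕ) (G : ℤ[X])
    (h : G.map (Int.castRingHom (ZMod q)) = 0) : ∃ A : ℤ[X], G = C (q : ℤ) * A := by
  have : C (q : ℤ) ∣ G := by
    rw [Polynomial.C_dvd_iff_dvd_coeff]
    intro i
    have hi := congrArg (fun P => Polynomial.coeff P i) h
    simp only [coeff_map, coeff_zero, eq_intCast] at hi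
    exact (ZMod.intCast_zmod_eq_zero_iff_dvd _ _).mp hi
  exact this

/-- General criterion: in the ring of integers `ℤ[ζ]` of the `p`-th cyclotomic field, if
`α = g(ζ)` divides `q` and `m(ζ)`, where `m` is irreducible modulo `q` and divides both `Φ_p`
and `g` modulo `q`, then `(α)` is a prime ideal lying over `q`. -/
theorem h68_span_mem_primesOver
    {p : ℕ} [hp : Fact p.Prime] {K : Type*} [Field K] [NumberField K]
    [IsCyclotomicExtension {p} ℚ K]
    {ζ : K} (hζ : IsPrimitiveRoot ζ p) (q : ℕ) [hq : Fact q.Prime]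
    (m g : ℤ[X]) (hm : Irreducible (m.map (Int.castRingHom (ZMod q))))
    (hmΦ : m.map (Int.castRingHom (ZMod q)) ∣ (cyclotomic p ℤ).map (Int.castRingHom (ZMod q)))
    (hmg : m.map (Int.castRingHom (ZMod q)) ∣ g.map (Int.castRingHom (ZMod q)))
    (hαq : aeval hζ.toInteger g ∣ (q : 𝓞 K))
    (hαm : aeval hζ.toInteger g ∣ aeval hζ.toInteger m) :
    Ideal.span {aeval hζ.toInteger g} ∈ Ideal.primesOver (Ideal.span {(q : ℤ)}) (𝓞 K) := by
  classical
  set mbar : (ZMod q)[X] := m.map (Int.castRingHom (ZMod q)) with hmbar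
  haveI : Fact (Irreducible mbar) := ⟨hm⟩
  set α : 𝓞 K := aeval hζ.toInteger g with hα
  -- the power basis and the ring hom to `F = 𝔽_q[X]/(m̄)`
  let pb : PowerBasis ℤ (𝓞 K) := hζ.integralPowerBasis
  have hgen : pb.gen = hζ.toInteger := hζ.integralPowerBasis_gen
  have hminpoly : minpoly ℤ pb.gen = cyclotomic p ℤ := by
    rw [hgen, cyclotomic_eq_minpoly hζ hp.out.pos]
    exact (NumberField.RingOfIntegers.minpoly_coe hζ.toInteger).symm
  have haeval_root : ∀ G : ℤ[X], aeval (AdjoinRoot.root mbar) G =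
      AdjoinRoot.mk mbar (G.map (Int.castRingHom (ZMod q))) := by
    intro G
    rw [← Polynomial.aeval_map_algebraMap (ZMod q), AdjoinRoot.aeval_eq]
    rfl
  have hroot : aeval (AdjoinRoot.root mbar) (minpoly ℤ pb.gen) = 0 := by
    rw [hminpoly, haeval_root]
    exact AdjoinRoot.mk_eq_zero.mpr hmΦ
  let φ : 𝓞 K →ₐ[ℤ] AdjoinRoot mbar := pb.lift (AdjoinRoot.root mbar) hroot
  have hφgen : φ hζ.toInteger = AdjoinRoot.root mbar := by
    rw [← hgen]; exact pb.lift_gen _ hroot
  have hφaeval : ∀ G : ℤ[X], φ (aeval hζ.toInteger G) =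
      AdjoinRoot.mk mbar (G.map (Int.castRingHom (ZMod q))) := by
    intro G
    rw [← Polynomial.aeval_algHom_apply, hφgen, haeval_root]
  -- kernel of φ
  have hker : RingHom.ker (φ : 𝓞 K →+* AdjoinRoot mbar) = Ideal.span {α} := by
    apply le_antisymm
    · intro x hx
      rw [RingHom.mem_ker] at hx
      obtain ⟨G, rfl⟩ : ∃ G : ℤ[X], x = aeval hζ.toInteger G := by
        obtain ⟨G, hG⟩ := pb.exists_eq_aeval' x
        exact ⟨G, by rw [hG, hgen]⟩
      have h1 : AdjoinRoot.mk mbar (G.map (Int.castRingHom (ZMod q))) = 0 := by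
        rw [← hφaeval]; exact hx
      obtain ⟨Bbar, hB⟩ := AdjoinRoot.mk_eq_zero.mp h1
      obtain ⟨B, rfl⟩ := Polynomial.map_surjective (Int.castRingHom (ZMod q))
        (ZMod.intCast_surjective) Bbar
      have h2 : (G - m * B).map (Int.castRingHom (ZMod q)) = 0 := by
        rw [Polynomial.map_sub, Polynomial.map_mul, hB, sub_self]
      obtain ⟨A, hA⟩ := h68_exists_eq_C_mul_of_map_eq_zero q _ h2
      have h3 : G = m * B + C (q : ℤ) * A := by rw [← hA]; ring
      rw [h3, map_add, map_mul, map_mul, aeval_C]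
      apply Ideal.add_mem
      · apply Ideal.mul_mem_right
        exact Ideal.mem_span_singleton.mpr hαm
      · apply Ideal.mul_mem_right
        apply Ideal.mem_span_singleton.mpr
        simpa using hαq
    · rw [Ideal.span_singleton_le_iff_mem, RingHom.mem_ker]
      show φ (aeval hζ.toInteger g) = 0
      rw [hφaeval]
      exact AdjoinRoot.mk_eq_zero.mpr hmg
  have hprime : (Ideal.span {α}).IsPrime := by
    rw [← hker]
    exact RingHom.ker_isPrime _
  refine ⟨hprime, ?_⟩
  -- lies over `q`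
  constructor
  have hqprime : Prime (q : ℤ) := Nat.prime_iff_prime_int.mp hq.out
  have hmax : (Ideal.span {(q : ℤ)}).IsMaximal :=
    PrincipalIdealRing.isMaximal_of_irreducible hqprime.irreducible
  have hle : Ideal.span {(q : ℤ)} ≤ (Ideal.span {α}).under ℤ := by
    rw [Ideal.span_singleton_le_iff_mem, Ideal.under_def, Ideal.mem_comap]
    apply Ideal.mem_span_singleton.mpr
    simpa using hαq
  have hne : (Ideal.span {α}).under ℤ ≠ ⊤ := by
    intro h
    apply hprime.ne_top
    rw [Ideal.eq_top_iff_one]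
    have : (1 : ℤ) ∈ (Ideal.span {α}).under ℤ := h ▸ Submodule.mem_top
    rw [Ideal.under_def, Ideal.mem_comap] at this
    simpa using this
  exact (hmax.eq_of_le hne hle)

end Fermat.Agent.S10
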