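import Mathlib
import Fermat.Agent.S10.PrincipalPrime

set_option autoImplicit false

namespace Fermat.Agent.S10

open Polynomial NumberField Ideal

/-- `Φ = m c + q e` over `ℤ` gives `m̄ ∣ Φ̄` over `𝔽_q`. -/
theorem h68_map_dvd_of_eq (q : ℕ) {m Φ c e : ℤ[X]} (h : Φ = m * c + ((q : ℕ) : ℤ[X]) * e) :
    m.map (Int.castRingHom (ZMod q)) ∣ Φ.map (Int.castRingHom (ZMod q)) := by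
  rw [h, Polynomial.map_add, Polynomial.map_mul, Polynomial.map_mul]
  have h0 : (((q : ℕ) : ℤ[X])).map (Int.castRingHom (ZMod q)) = 0 := by
    rw [Polynomial.map_natCast]
    have : ((q : ℕ) : ZMod q) = 0 := ZMod.natCast_self q
    rw [← map_natCast (C : ZMod q →+* (ZMod q)[X]), this, map_zero]
  rw [h0, zero_mul, add_zero]
  exact dvd_mul_right _ _

theorem h68_cyclotomic_thirteen :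
    cyclotomic 13 ℤ = (1 + X + X ^ 2 + X ^ 3 + X ^ 4 + X ^ 5 + X ^ 6 + X ^ 7 + X ^ 8 + X ^ 9
      + X ^ 10 + X ^ 11 + X ^ 12 : ℤ[X]) := by
  haveI : Fact (Nat.Prime 13) := ⟨by norm_num⟩
  rw [Polynomial.cyclotomic_prime ℤ 13]
  simp [Finset.sum_range_succ]

/-- `g h = T + c Φ_p` gives `g(ζ) ∣ T(ζ)`. -/
theorem h68_aeval_dvd_of_eq {p : ℕ} [hp : Fact p.Prime] {K : Type*} [Field K] [NumberField K]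
    {ζ : K} (hζ : IsPrimitiveRoot ζ p) {g h T c : ℤ[X]}
    (hid : g * h = T + c * cyclotomic p ℤ) :
    aeval hζ.toInteger g ∣ aeval hζ.toInteger T := by
  have h0 : aeval hζ.toInteger (cyclotomic p ℤ) = 0 := by
    rw [cyclotomic_eq_minpoly hζ hp.out.pos,
      show minpoly ℤ ζ = minpoly ℤ hζ.toInteger from
        NumberField.RingOfIntegers.minpoly_coe hζ.toInteger]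
    exact minpoly.aeval ℤ _
  refine ⟨aeval hζ.toInteger h, ?_⟩
  rw [← map_mul, hid, map_add, map_mul, h0, mul_zero, add_zero]

-- data for q = 53
theorem h68_id1_53 : (1 + X + X ^ 2 + X ^ 3 + X ^ 4 + X ^ 5 + X ^ 6 + X ^ 7 + X ^ 8 + X ^ 9 + X ^ 10 + X ^ 11 + X ^ 12 : ℤ[X]) = (-36 + X : ℤ[X]) * (25 - 17 * X + 26 * X ^ 2 + 11 * X ^ 3 + 15 * X ^ 4 + 21 * X ^ 5 - 23 * X ^ 6 + 17 * X ^ 7 + 24 * X ^ 8 + 8 * X ^ 9 - 16 * X ^ 10 + X ^ 11 : ℤ[X]) + ((53 : ℕ) : ℤ[X]) * (17 - 12 * X + 18 * X ^ 2 + 7 * X ^ 3 + 10 * X ^ 4 + 14 * X ^ 5 - 16 * X ^ 6 + 12 * X ^ 7 + 16 * X ^ 8 + 5 * X ^ 9 - 11 * X ^ 10 + X ^ 11 : ℤ[X]) := by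
  push_cast; ring
theorem h68_id2_53 : (1 + X + X ^ 3 : ℤ[X]) = (-36 + X : ℤ[X]) * (25 - 17 * X + X ^ 2 : ℤ[X]) + ((53 : ℕ) : ℤ[X]) * (17 - 12 * X + X ^ 2 : ℤ[X]) := by
  push_cast; ring
theorem h68_id3_53 : (1 + X + X ^ 3 : ℤ[X]) * (1 - 24 * X - 35 * X ^ 2 - 25 * X ^ 3 - 10 * X ^ 4 - 14 * X ^ 5 - 20 * X ^ 6 - 29 * X ^ 7 - 16 * X ^ 8 - 23 * X ^ 9 - 7 * X ^ 10 - 36 * X ^ 11 : ℤ[X]) = ((53 : ℕ) : ℤ[X]) + (-52 + 29 * X - 36 * X ^ 2 : ℤ[X]) * (1 + X + X ^ 2 + X ^ 3 + X ^ 4 + X ^ 5 + X ^ 6 + X ^ 7 + X ^ 8 + X ^ 9 + X ^ 10 + X ^ 11 + X ^ 12 : ℤ[X]) := by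
  push_cast; ring
theorem h68_id4_53 : (1 + X + X ^ 3 : ℤ[X]) * (17 * X + 24 * X ^ 2 + 17 * X ^ 3 + 7 * X ^ 4 + 10 * X ^ 5 + 14 * X ^ 6 + 20 * X ^ 7 + 11 * X ^ 8 + 16 * X ^ 9 + 5 * X ^ 10 + 25 * X ^ 11 : ℤ[X]) = (-36 + X : ℤ[X]) + (36 - 20 * X + 25 * X ^ 2 : ℤ[X]) * (1 + X + X ^ 2 + X ^ 3 + X ^ 4 + X ^ 5 + X ^ 6 + X ^ 7 + X ^ 8 + X ^ 9 + X ^ 10 + X ^ 11 + X ^ 12 : ℤ[X]) := by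
  push_cast; ring

-- data for q = 3
theorem h68_id1_3 : (1 + X + X ^ 2 + X ^ 3 + X ^ 4 + X ^ 5 + X ^ 6 + X ^ 7 + X ^ 8 + X ^ 9 + X ^ 10 + X ^ 11 + X ^ 12 : ℤ[X]) = (2 + 2 * X + X ^ 3 : ℤ[X]) * (-1 - X ^ 2 - X ^ 3 + X ^ 5 - X ^ 7 + X ^ 8 + X ^ 9 : ℤ[X]) + ((3 : ℕ) : ℤ[X]) * (1 + X + X ^ 2 + 2 * X ^ 3 + X ^ 4 + X ^ 7 - X ^ 9 : ℤ[X]) := by
  push_cast; ring
theorem h68_id2_3 : (1 + X - X ^ 3 : ℤ[X]) = (2 + 2 * X + X ^ 3 : ℤ[X]) * (-1 : ℤ[X]) + ((3 : ℕ) : ℤ[X]) * (1 + X : ℤ[X]) := by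
  push_cast; ring
theorem h68_id3_3 : (1 + X - X ^ 3 : ℤ[X]) * (-1 - X ^ 2 - X ^ 3 - 2 * X ^ 5 - X ^ 7 - 2 * X ^ 8 + X ^ 9 - 3 * X ^ 10 : ℤ[X]) = ((3 : ℕ) : ℤ[X]) + (-4 + 3 * X : ℤ[X]) * (1 + X + X ^ 2 + X ^ 3 + X ^ 4 + X ^ 5 + X ^ 6 + X ^ 7 + X ^ 8 + X ^ 9 + X ^ 10 + X ^ 11 + X ^ 12 : ℤ[X]) := by
  push_cast; ring
theorem h68_id4_3 : (1 + X - X ^ 3 : ℤ[X]) * (-2 - X - X ^ 2 - 2 * X ^ 3 - X ^ 4 - 2 * X ^ 5 - 2 * X ^ 6 - X ^ 7 - 3 * X ^ 8 - X ^ 9 - 2 * X ^ 10 - 3 * X ^ 11 : ℤ[X]) = (2 + 2 * X + X ^ 3 : ℤ[X]) + (-4 - X + 3 * X ^ 2 : ℤ[X]) * (1 + X + X ^ 2 + X ^ 3 + X ^ 4 + X ^ 5 + X ^ 6 + X ^ 7 + X ^ 8 + X ^ 9 + X ^ 10 + X ^ 11 + X ^ 12 : ℤ[X]) := by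
  push_cast; ring

-- data for q = 131
theorem h68_id1_131 : (1 + X + X ^ 2 + X ^ 3 + X ^ 4 + X ^ 5 + X ^ 6 + X ^ 7 + X ^ 8 + X ^ 9 + X ^ 10 + X ^ 11 + X ^ 12 : ℤ[X]) = (-80 + X : ℤ[X]) * (18 - 44 * X + 24 * X ^ 2 - 21 * X ^ 3 + 3 * X ^ 4 - 36 * X ^ 5 + 11 * X ^ 6 - 49 * X ^ 7 - 17 * X ^ 8 + 62 * X ^ 9 - 50 * X ^ 10 + X ^ 11 : ℤ[X]) + ((131 : ℕ) : ℤ[X]) * (11 - 27 * X + 15 * X ^ 2 - 13 * X ^ 3 + 2 * X ^ 4 - 22 * X ^ 5 + 7 * X ^ 6 - 30 * X ^ 7 - 10 * X ^ 8 + 38 * X ^ 9 - 31 * X ^ 10 + X ^ 11 : ℤ[X]) := by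
  push_cast; ring
theorem h68_id2_131 : (1 - X - X ^ 3 : ℤ[X]) = (-80 + X : ℤ[X]) * (18 + 51 * X - X ^ 2 : ℤ[X]) + ((131 : ℕ) : ℤ[X]) * (11 + 31 * X - X ^ 2 : ℤ[X]) := by
  push_cast; ring
theorem h68_id3_131 : (1 - X - X ^ 3 : ℤ[X]) * (111 + 78 * X + 17 * X ^ 2 + 67 * X ^ 3 + 84 * X ^ 4 + 40 * X ^ 5 + 46 * X ^ 6 + 69 * X ^ 7 + 48 * X ^ 8 + 33 * X ^ 9 + 41 * X ^ 10 + 28 * X ^ 11 : ℤ[X]) = ((131 : ℕ) : ℤ[X]) + (-20 - 13 * X - 28 * X ^ 2 : ℤ[X]) * (1 + X + X ^ 2 + X ^ 3 + X ^ 4 + X ^ 5 + X ^ 6 + X ^ 7 + X ^ 8 + X ^ 9 + X ^ 10 + X ^ 11 + X ^ 12 : ℤ[X]) := by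
  push_cast; ring
theorem h68_id4_131 : (1 - X - X ^ 3 : ℤ[X]) * (-68 - 47 * X - 10 * X ^ 2 - 41 * X ^ 3 - 51 * X ^ 4 - 24 * X ^ 5 - 28 * X ^ 6 - 42 * X ^ 7 - 29 * X ^ 8 - 20 * X ^ 9 - 25 * X ^ 10 - 17 * X ^ 11 : ℤ[X]) = (-80 + X : ℤ[X]) + (12 + 8 * X + 17 * X ^ 2 : ℤ[X]) * (1 + X + X ^ 2 + X ^ 3 + X ^ 4 + X ^ 5 + X ^ 6 + X ^ 7 + X ^ 8 + X ^ 9 + X ^ 10 + X ^ 11 + X ^ 12 : ℤ[X]) := by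
  push_cast; ring

-- data for q = 79
theorem h68_id1_79 : (1 + X + X ^ 2 + X ^ 3 + X ^ 4 + X ^ 5 + X ^ 6 + X ^ 7 + X ^ 8 + X ^ 9 + X ^ 10 + X ^ 11 + X ^ 12 : ℤ[X]) = (-64 + X : ℤ[X]) * (-21 + 12 * X - 6 * X ^ 2 + 11 * X ^ 3 - 27 * X ^ 4 - 35 * X ^ 5 + 34 * X ^ 6 - 18 * X ^ 7 - 4 * X ^ 8 - 26 * X ^ 9 - 14 * X ^ 10 + X ^ 11 : ℤ[X]) + ((79 : ℕ) : ℤ[X]) * (-17 + 10 * X - 5 * X ^ 2 + 9 * X ^ 3 - 22 * X ^ 4 - 28 * X ^ 5 + 28 * X ^ 6 - 15 * X ^ 7 - 3 * X ^ 8 - 21 * X ^ 9 - 11 * X ^ 10 + X ^ 11 : ℤ[X]) := by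
  push_cast; ring
theorem h68_id2_79 : (1 + X - X ^ 4 : ℤ[X]) = (-64 + X : ℤ[X]) * (-21 + 12 * X + 15 * X ^ 2 - X ^ 3 : ℤ[X]) + ((79 : ℕ) : ℤ[X]) * (-17 + 10 * X + 12 * X ^ 2 - X ^ 3 : ℤ[X]) := by
  push_cast; ring
theorem h68_id3_79 : (1 + X - X ^ 4 : ℤ[X]) * (24 - 25 * X - 27 * X ^ 2 + 10 * X ^ 3 - 3 * X ^ 4 - 39 * X ^ 5 - 5 * X ^ 6 - 2 * X ^ 7 - 18 * X ^ 8 - 38 * X ^ 9 + 16 * X ^ 10 - 35 * X ^ 11 : ℤ[X]) = ((79 : ℕ) : ℤ[X]) + (-55 + 54 * X - 51 * X ^ 2 + 35 * X ^ 3 : ℤ[X]) * (1 + X + X ^ 2 + X ^ 3 + X ^ 4 + X ^ 5 + X ^ 6 + X ^ 7 + X ^ 8 + X ^ 9 + X ^ 10 + X ^ 11 + X ^ 12 : ℤ[X]) := by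
  push_cast; ring
theorem h68_id4_79 : (1 + X - X ^ 4 : ℤ[X]) * (-19 + 21 * X + 22 * X ^ 2 - 8 * X ^ 3 + 3 * X ^ 4 + 32 * X ^ 5 + 4 * X ^ 6 + 2 * X ^ 7 + 15 * X ^ 8 + 31 * X ^ 9 - 13 * X ^ 10 + 29 * X ^ 11 : ℤ[X]) = (-64 + X : ℤ[X]) + (45 - 44 * X + 42 * X ^ 2 - 29 * X ^ 3 : ℤ[X]) * (1 + X + X ^ 2 + X ^ 3 + X ^ 4 + X ^ 5 + X ^ 6 + X ^ 7 + X ^ 8 + X ^ 9 + X ^ 10 + X ^ 11 + X ^ 12 : ℤ[X]) := by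
  push_cast; ring

-- data for q = 157
theorem h68_id1_157 : (1 + X + X ^ 2 + X ^ 3 + X ^ 4 + X ^ 5 + X ^ 6 + X ^ 7 + X ^ 8 + X ^ 9 + X ^ 10 + X ^ 11 + X ^ 12 : ℤ[X]) = (-75 + X : ℤ[X]) * (-67 - 3 * X + 46 * X ^ 2 + 32 * X ^ 3 + 36 * X ^ 4 - 10 * X ^ 5 + 48 * X ^ 6 + 9 * X ^ 7 + 65 * X ^ 8 + 49 * X ^ 9 + 76 * X ^ 10 + X ^ 11 : ℤ[X]) + ((157 : ℕ) : ℤ[X]) * (-32 - X + 22 * X ^ 2 + 15 * X ^ 3 + 17 * X ^ 4 - 5 * X ^ 5 + 23 * X ^ 6 + 4 * X ^ 7 + 31 * X ^ 8 + 23 * X ^ 9 + 36 * X ^ 10 : ℤ[X]) := by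
  push_cast; ring
theorem h68_id2_157 : (1 - X + X ^ 2 + X ^ 4 : ℤ[X]) = (-75 + X : ℤ[X]) * (-67 - 26 * X + 75 * X ^ 2 + X ^ 3 : ℤ[X]) + ((157 : ℕ) : ℤ[X]) * (-32 - 12 * X + 36 * X ^ 2 : ℤ[X]) := by
  push_cast; ring
theorem h68_id3_157 : (1 - X + X ^ 2 + X ^ 4 : ℤ[X]) * (89 + 86 * X + 42 * X ^ 2 + 77 * X ^ 3 + 67 * X ^ 4 + 25 * X ^ 5 + 37 * X ^ 6 + 56 * X ^ 7 + 73 * X ^ 8 + 113 * X ^ 9 + 124 * X ^ 10 + 76 * X ^ 11 : ℤ[X]) = ((157 : ℕ) : ℤ[X]) + (-68 + 65 * X + 48 * X ^ 2 + 76 * X ^ 3 : ℤ[X]) * (1 + X + X ^ 2 + X ^ 3 + X ^ 4 + X ^ 5 + X ^ 6 + X ^ 7 + X ^ 8 + X ^ 9 + X ^ 10 + X ^ 11 + X ^ 12 : ℤ[X]) := by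
  push_cast; ring
theorem h68_id4_157 : (1 - X + X ^ 2 + X ^ 4 : ℤ[X]) * (-43 - 41 * X - 20 * X ^ 2 - 37 * X ^ 3 - 32 * X ^ 4 - 12 * X ^ 5 - 18 * X ^ 6 - 27 * X ^ 7 - 35 * X ^ 8 - 54 * X ^ 9 - 59 * X ^ 10 - 36 * X ^ 11 : ℤ[X]) = (-75 + X : ℤ[X]) + (32 - 31 * X - 23 * X ^ 2 - 36 * X ^ 3 : ℤ[X]) * (1 + X + X ^ 2 + X ^ 3 + X ^ 4 + X ^ 5 + X ^ 6 + X ^ 7 + X ^ 8 + X ^ 9 + X ^ 10 + X ^ 11 + X ^ 12 : ℤ[X]) := by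
  push_cast; ring

end Fermat.Agent.S10
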