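import Mathlib
import Fermat.Agent.S10.PID13Data

set_option autoImplicit false

namespace Fermat.Agent.S10

open Polynomial NumberField Ideal Module InfinitePlace Nat Real

universe u

/-- Orders of small primes modulo 13 are large enough. -/
theorem h68_pow_orderOf_gt (q : ℕ) (hq : q.Prime) (hq306 : q ≤ 306) (h13 : q ≠ 13)
    (hsp : q ≠ 3 ∧ q ≠ 53 ∧ q ≠ 79 ∧ q ≠ 131 ∧ q ≠ 157) :
    306 < q ^ orderOf (q : ZMod 13) := by
  have key : ∀ (x : ZMod 13) (n : ℕ), 0 < n → x ^ n = 1 →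
      (∀ p : ℕ, p.Prime → p ∣ n → x ^ (n / p) ≠ 1) → orderOf x = n :=
    fun x n hn hx hd => orderOf_eq_of_pow_and_pow_div_prime hn hx hd
  have hq0 : (q : ZMod 13) ≠ 0 := by
    intro h
    rw [ZMod.natCast_eq_zero_iff] at h
    exact h13 ((Nat.prime_dvd_prime_iff_eq (by norm_num) hq).mp h).symm
  have hpow : (q : ZMod 13) ^ 12 = 1 := by
    haveI : Fact (Nat.Prime 13) := ⟨by norm_num⟩
    have := ZMod.pow_card_sub_one_eq_one hq0
    simpa using this
  have hpos : 0 < orderOf (q : ZMod 13) :=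
    orderOf_pos_iff.mpr (isOfFinOrder_iff_pow_eq_one.mpr ⟨12, by norm_num, hpow⟩)
  by_cases hbig : 18 ≤ q
  · -- q ≥ 18: order ≥ 2
    have hne1 : (q : ZMod 13) ≠ 1 := by
      intro h1
      have h2 : q % 13 = 1 := by
        have := (ZMod.natCast_eq_natCast_iff' q 1 13).mp (by simpa using h1)
        simpa using this
      obtain ⟨k, hk⟩ : ∃ k, q = 13 * k + 1 := ⟨q / 13, by omega⟩
      have hk23 : k ≤ 23 := by omega
      obtain ⟨h3, h53, h79, h131, h157⟩ := hsp
      subst hk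
      interval_cases k <;> first | omega | (exfalso; revert hq; norm_num)
    have h2 : 2 ≤ orderOf (q : ZMod 13) := by
      rcases Nat.lt_or_ge (orderOf (q : ZMod 13)) 2 with h | h
      · have h1 : orderOf (q : ZMod 13) = 1 := by omega
        exact absurd (orderOf_eq_one_iff.mp h1) hne1
      · exact h
    calc 306 < 18 ^ 2 := by norm_num
      _ ≤ q ^ 2 := Nat.pow_le_pow_left hbig 2
      _ ≤ q ^ orderOf (q : ZMod 13) := Nat.pow_le_pow_right hq.pos h2
  · -- q < 18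
    push Not at hbig
    obtain ⟨h3, -⟩ := hsp
    interval_cases q
    · exact absurd hq (by norm_num)
    · exact absurd hq (by norm_num)
    · -- q = 2, order 12
      have : orderOf ((2 : ℕ) : ZMod 13) = 12 := by
        apply key _ 12 (by norm_num) (by decide)
        intro p hp hpd
        have hp12 : p ∣ 2 ^ 2 * 3 := by simpa using hpd
        rcases (Nat.Prime.dvd_mul hp).mp hp12 with h | h
        · have := (Nat.prime_dvd_prime_iff_eq hp Nat.prime_two).mp (hp.dvd_of_dvd_pow h)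
          subst this; decide
        · have := (Nat.prime_dvd_prime_iff_eq hp Nat.prime_three).mp h
          subst this; decide
      rw [this]; norm_num
    · exact absurd rfl h3
    · exact absurd hq (by norm_num)
    · -- q = 5, order 4
      have : orderOf ((5 : ℕ) : ZMod 13) = 4 := by
        apply key _ 4 (by norm_num) (by decide)
        intro p hp hpd
        have hp4 : p ∣ 2 ^ 2 := by simpa using hpd
        have := (Nat.prime_dvd_prime_iff_eq hp Nat.prime_two).mp (hp.dvd_of_dvd_pow hp4)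
        subst this; decide
      rw [this]; norm_num
    · exact absurd hq (by norm_num)
    · -- q = 7, order 12
      have : orderOf ((7 : ℕ) : ZMod 13) = 12 := by
        apply key _ 12 (by norm_num) (by decide)
        intro p hp hpd
        have hp12 : p ∣ 2 ^ 2 * 3 := by simpa using hpd
        rcases (Nat.Prime.dvd_mul hp).mp hp12 with h | h
        · have := (Nat.prime_dvd_prime_iff_eq hp Nat.prime_two).mp (hp.dvd_of_dvd_pow h)
          subst this; decide
        · have := (Nat.prime_dvd_prime_iff_eq hp Nat.prime_three).mp h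
          subst this; decide
      rw [this]; norm_num
    · exact absurd hq (by norm_num)
    · exact absurd hq (by norm_num)
    · exact absurd hq (by norm_num)
    · -- q = 11, order 12
      have : orderOf ((11 : ℕ) : ZMod 13) = 12 := by
        apply key _ 12 (by norm_num) (by decide)
        intro p hp hpd
        have hp12 : p ∣ 2 ^ 2 * 3 := by simpa using hpd
        rcases (Nat.Prime.dvd_mul hp).mp hp12 with h | h
        · have := (Nat.prime_dvd_prime_iff_eq hp Nat.prime_two).mp (hp.dvd_of_dvd_pow h)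
          subst this; decide
        · have := (Nat.prime_dvd_prime_iff_eq hp Nat.prime_three).mp h
          subst this; decide
      rw [this]; norm_num
    · exact absurd hq (by norm_num)
    · exact absurd rfl h13
    · exact absurd hq (by norm_num)
    · exact absurd hq (by norm_num)
    · exact absurd hq (by norm_num)
    · -- q = 17, order 6
      have : orderOf ((17 : ℕ) : ZMod 13) = 6 := by
        apply key _ 6 (by norm_num) (by decide)
        intro p hp hpd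
        have hp6 : p ∣ 2 * 3 := by simpa using hpd
        rcases (Nat.Prime.dvd_mul hp).mp hp6 with h | h
        · have := (Nat.prime_dvd_prime_iff_eq hp Nat.prime_two).mp h
          subst this; decide
        · have := (Nat.prime_dvd_prime_iff_eq hp Nat.prime_three).mp h
          subst this; decide
      rw [this]; norm_num

theorem h68_minkowski_thirteen (K : Type u) [Field K] [NumberField K]
    [IsCyclotomicExtension {13} ℚ K] :
    ⌊(4 / π) ^ nrComplexPlaces K *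
      ((finrank ℚ K)! / (finrank ℚ K) ^ (finrank ℚ K) * √|(discr K : ℝ)|)⌋₊ ≤ 306 := by
  haveI : Fact (Nat.Prime 13) := ⟨by norm_num⟩
  rw [IsCyclotomicExtension.Rat.discr_prime 13 K,
    IsCyclotomicExtension.finrank (n := 13) K (cyclotomic.irreducible_rat (by simp)),
    IsCyclotomicExtension.Rat.nrComplexPlaces_eq_totient_div_two 13,
    totient_prime (by norm_num)]
  apply Nat.le_of_lt_succ
  rw [Nat.floor_lt (by positivity)]
  have hfac : ((13 - 1)! : ℝ) = 479001600 := by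
    have : (13 - 1)! = 479001600 := by decide
    rw [this]; norm_num
  have hdisc : |(((-1 : ℤ) ^ ((13 - 1) / 2) * ((13 : ℕ) : ℤ) ^ (13 - 2) : ℤ) : ℝ)| = 13 ^ 11 := by
    norm_num
  rw [hfac, hdisc]
  have hsqrt : √((13 : ℝ) ^ 11) < 1338716 := by
    rw [Real.sqrt_lt' (by norm_num)]; norm_num
  have hpi : (4 / π) ^ ((13 - 1) / 2) < (4 / 3.1415 : ℝ) ^ 6 := by
    have : (13 - 1) / 2 = 6 := by norm_num
    rw [this]
    gcongr
    exact pi_gt_d4
  have hpos1 : (0 : ℝ) < (4 / π) ^ ((13 - 1) / 2) := by positivity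
  have hpos2 : (0 : ℝ) ≤ √((13 : ℝ) ^ 11) := Real.sqrt_nonneg _
  have hbound : (4 / π) ^ ((13 - 1) / 2) *
      (479001600 / ((13 - 1 : ℕ) : ℝ) ^ (13 - 1) * √((13 : ℝ) ^ 11))
      ≤ (4 / 3.1415 : ℝ) ^ 6 * (479001600 / ((13 - 1 : ℕ) : ℝ) ^ (13 - 1) * 1338716) := by
    apply mul_le_mul hpi.le _ (by positivity) (by positivity)
    apply mul_le_mul_of_nonneg_left hsqrt.le (by positivity)
  refine lt_of_le_of_lt hbound ?_
  have h307 : ((succ 306 : ℕ) : ℝ) = 307 := by norm_num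
  rw [h307]
  have h12 : (((13 - 1 : ℕ) : ℝ)) = 12 := by norm_num
  rw [h12]
  norm_num


theorem h68_prime_53 {K : Type*} [Field K] [NumberField K] [IsCyclotomicExtension {13} ℚ K]
    {ζ : K} (hζ : IsPrimitiveRoot ζ 13) :
    ∃ P ∈ primesOver (span {(((53 : ℕ) : ℤ))}) (𝓞 K), Submodule.IsPrincipal P := by
  haveI : Fact (Nat.Prime 13) := ⟨by norm_num⟩
  haveI : Fact (Nat.Prime 53) := ⟨by norm_num⟩
  refine ⟨_, h68_span_mem_primesOver hζ 53 (-36 + X : ℤ[X]) (1 + X + X ^ 3 : ℤ[X])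
    ?_ ?_ ?_ ?_ ?_, ⟨⟨_, rfl⟩⟩⟩
  ·
    have h1 : ((-36 + X : ℤ[X])) = X - C (36 : ℤ) := by
      rw [sub_eq_neg_add]; simp
    have hmap : ((-36 + X : ℤ[X])).map (Int.castRingHom (ZMod 53)) = X - C (36 : ZMod 53) := by
      rw [h1, Polynomial.map_sub, Polynomial.map_X, Polynomial.map_C]; simp
    rw [hmap]; exact irreducible_X_sub_C _
  · rw [h68_cyclotomic_thirteen]; exact h68_map_dvd_of_eq 53 h68_id1_53
  · exact h68_map_dvd_of_eq 53 h68_id2_53
  · have h := h68_aeval_dvd_of_eq hζ (c := (-52 + 29 * X - 36 * X ^ 2 : ℤ[X]))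
      (by rw [h68_cyclotomic_thirteen]; exact h68_id3_53)
    have hq' : aeval hζ.toInteger (((53 : ℕ) : ℤ[X])) = (((53 : ℕ) : 𝓞 K)) := map_natCast _ _
    rw [hq'] at h
    exact h
  · exact h68_aeval_dvd_of_eq hζ (c := (36 - 20 * X + 25 * X ^ 2 : ℤ[X]))
      (by rw [h68_cyclotomic_thirteen]; exact h68_id4_53)


theorem h68_prime_3 {K : Type*} [Field K] [NumberField K] [IsCyclotomicExtension {13} ℚ K]
    {ζ : K} (hζ : IsPrimitiveRoot ζ 13) :
    ∃ P ∈ primesOver (span {(((3 : ℕ) : ℤ))}) (𝓞 K), Submodule.IsPrincipal P := by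
  haveI : Fact (Nat.Prime 13) := ⟨by norm_num⟩
  refine ⟨_, h68_span_mem_primesOver hζ 3 (2 + 2 * X + X ^ 3 : ℤ[X]) (1 + X - X ^ 3 : ℤ[X])
    ?_ ?_ ?_ ?_ ?_, ⟨⟨_, rfl⟩⟩⟩
  ·
    have hmon : ((2 + 2 * X + X ^ 3 : ℤ[X])).Monic := by monicity!
    have hdeg : ((2 + 2 * X + X ^ 3 : ℤ[X])).natDegree = 3 := by compute_degree!
    have hmon' := hmon.map (Int.castRingHom (ZMod 3))
    have hdeg' : (((2 + 2 * X + X ^ 3 : ℤ[X])).map (Int.castRingHom (ZMod 3))).natDegree = 3 := by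
      rw [hmon.natDegree_map, hdeg]
    rw [hmon'.irreducible_iff_roots_eq_zero_of_degree_le_three (by rw [hdeg']; norm_num)
      (by rw [hdeg'])]
    apply Multiset.eq_zero_of_forall_notMem
    intro x hx
    rw [mem_roots hmon'.ne_zero, IsRoot.def, eval_map] at hx
    simp only [eval₂_add, eval₂_mul, eval₂_pow, eval₂_X, eval₂_ofNat] at hx
    revert hx
    revert x
    decide
  · rw [h68_cyclotomic_thirteen]; exact h68_map_dvd_of_eq 3 h68_id1_3
  · exact h68_map_dvd_of_eq 3 h68_id2_3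
  · have h := h68_aeval_dvd_of_eq hζ (c := (-4 + 3 * X : ℤ[X]))
      (by rw [h68_cyclotomic_thirteen]; exact h68_id3_3)
    have hq' : aeval hζ.toInteger (((3 : ℕ) : ℤ[X])) = (((3 : ℕ) : 𝓞 K)) := map_natCast _ _
    rw [hq'] at h
    exact h
  · exact h68_aeval_dvd_of_eq hζ (c := (-4 - X + 3 * X ^ 2 : ℤ[X]))
      (by rw [h68_cyclotomic_thirteen]; exact h68_id4_3)


theorem h68_prime_131 {K : Type*} [Field K] [NumberField K] [IsCyclotomicExtension {13} ℚ K]
    {ζ : K} (hζ : IsPrimitiveRoot ζ 13) :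
    ∃ P ∈ primesOver (span {(((131 : ℕ) : ℤ))}) (𝓞 K), Submodule.IsPrincipal P := by
  haveI : Fact (Nat.Prime 13) := ⟨by norm_num⟩
  haveI : Fact (Nat.Prime 131) := ⟨by norm_num⟩
  refine ⟨_, h68_span_mem_primesOver hζ 131 (-80 + X : ℤ[X]) (1 - X - X ^ 3 : ℤ[X])
    ?_ ?_ ?_ ?_ ?_, ⟨⟨_, rfl⟩⟩⟩
  ·
    have h1 : ((-80 + X : ℤ[X])) = X - C (80 : ℤ) := by
      rw [sub_eq_neg_add]; simp
    have hmap : ((-80 + X : ℤ[X])).map (Int.castRingHom (ZMod 131)) = X - C (80 : ZMod 131) := by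
      rw [h1, Polynomial.map_sub, Polynomial.map_X, Polynomial.map_C]; simp
    rw [hmap]; exact irreducible_X_sub_C _
  · rw [h68_cyclotomic_thirteen]; exact h68_map_dvd_of_eq 131 h68_id1_131
  · exact h68_map_dvd_of_eq 131 h68_id2_131
  · have h := h68_aeval_dvd_of_eq hζ (c := (-20 - 13 * X - 28 * X ^ 2 : ℤ[X]))
      (by rw [h68_cyclotomic_thirteen]; exact h68_id3_131)
    have hq' : aeval hζ.toInteger (((131 : ℕ) : ℤ[X])) = (((131 : ℕ) : 𝓞 K)) := map_natCast _ _
    rw [hq'] at h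
    exact h
  · exact h68_aeval_dvd_of_eq hζ (c := (12 + 8 * X + 17 * X ^ 2 : ℤ[X]))
      (by rw [h68_cyclotomic_thirteen]; exact h68_id4_131)


theorem h68_prime_79 {K : Type*} [Field K] [NumberField K] [IsCyclotomicExtension {13} ℚ K]
    {ζ : K} (hζ : IsPrimitiveRoot ζ 13) :
    ∃ P ∈ primesOver (span {(((79 : ℕ) : ℤ))}) (𝓞 K), Submodule.IsPrincipal P := by
  haveI : Fact (Nat.Prime 13) := ⟨by norm_num⟩
  haveI : Fact (Nat.Prime 79) := ⟨by norm_num⟩
  refine ⟨_, h68_span_mem_primesOver hζ 79 (-64 + X : ℤ[X]) (1 + X - X ^ 4 : ℤ[X])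
    ?_ ?_ ?_ ?_ ?_, ⟨⟨_, rfl⟩⟩⟩
  ·
    have h1 : ((-64 + X : ℤ[X])) = X - C (64 : ℤ) := by
      rw [sub_eq_neg_add]; simp
    have hmap : ((-64 + X : ℤ[X])).map (Int.castRingHom (ZMod 79)) = X - C (64 : ZMod 79) := by
      rw [h1, Polynomial.map_sub, Polynomial.map_X, Polynomial.map_C]; simp
    rw [hmap]; exact irreducible_X_sub_C _
  · rw [h68_cyclotomic_thirteen]; exact h68_map_dvd_of_eq 79 h68_id1_79
  · exact h68_map_dvd_of_eq 79 h68_id2_79
  · have h := h68_aeval_dvd_of_eq hζ (c := (-55 + 54 * X - 51 * X ^ 2 + 35 * X ^ 3 : ℤ[X]))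
      (by rw [h68_cyclotomic_thirteen]; exact h68_id3_79)
    have hq' : aeval hζ.toInteger (((79 : ℕ) : ℤ[X])) = (((79 : ℕ) : 𝓞 K)) := map_natCast _ _
    rw [hq'] at h
    exact h
  · exact h68_aeval_dvd_of_eq hζ (c := (45 - 44 * X + 42 * X ^ 2 - 29 * X ^ 3 : ℤ[X]))
      (by rw [h68_cyclotomic_thirteen]; exact h68_id4_79)


theorem h68_prime_157 {K : Type*} [Field K] [NumberField K] [IsCyclotomicExtension {13} ℚ K]
    {ζ : K} (hζ : IsPrimitiveRoot ζ 13) :
    ∃ P ∈ primesOver (span {(((157 : ℕ) : ℤ))}) (𝓞 K), Submodule.IsPrincipal P := by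
  haveI : Fact (Nat.Prime 13) := ⟨by norm_num⟩
  haveI : Fact (Nat.Prime 157) := ⟨by norm_num⟩
  refine ⟨_, h68_span_mem_primesOver hζ 157 (-75 + X : ℤ[X]) (1 - X + X ^ 2 + X ^ 4 : ℤ[X])
    ?_ ?_ ?_ ?_ ?_, ⟨⟨_, rfl⟩⟩⟩
  ·
    have h1 : ((-75 + X : ℤ[X])) = X - C (75 : ℤ) := by
      rw [sub_eq_neg_add]; simp
    have hmap : ((-75 + X : ℤ[X])).map (Int.castRingHom (ZMod 157)) = X - C (75 : ZMod 157) := by
      rw [h1, Polynomial.map_sub, Polynomial.map_X, Polynomial.map_C]; simp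
    rw [hmap]; exact irreducible_X_sub_C _
  · rw [h68_cyclotomic_thirteen]; exact h68_map_dvd_of_eq 157 h68_id1_157
  · exact h68_map_dvd_of_eq 157 h68_id2_157
  · have h := h68_aeval_dvd_of_eq hζ (c := (-68 + 65 * X + 48 * X ^ 2 + 76 * X ^ 3 : ℤ[X]))
      (by rw [h68_cyclotomic_thirteen]; exact h68_id3_157)
    have hq' : aeval hζ.toInteger (((157 : ℕ) : ℤ[X])) = (((157 : ℕ) : 𝓞 K)) := map_natCast _ _
    rw [hq'] at h
    exact h
  · exact h68_aeval_dvd_of_eq hζ (c := (32 - 31 * X - 23 * X ^ 2 - 36 * X ^ 3 : ℤ[X]))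
      (by rw [h68_cyclotomic_thirteen]; exact h68_id4_157)

/-- The ring of integers of the 13-th cyclotomic field is a PID. -/
theorem thirteen_pid (K : Type u) [Field K] [NumberField K] [IsCyclotomicExtension {13} ℚ K] :
    IsPrincipalIdealRing (𝓞 K) := by
  haveI : Fact (Nat.Prime 13) := ⟨by norm_num⟩
  haveI : IsGalois ℚ K := IsCyclotomicExtension.isGalois {13} ℚ K
  have hM := h68_minkowski_thirteen K
  have hζ := IsCyclotomicExtension.zeta_spec 13 ℚ K
  apply RingOfIntegers.isPrincipalIdealRing_of_isPrincipal_of_lt_or_isPrincipal_of_mem_primesOver_of_mem_Icc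
  intro q hq hqp
  have hq306 : q ≤ 306 := (Finset.mem_Icc.mp hq).2.trans hM
  haveI : Fact q.Prime := ⟨hqp⟩
  by_cases h13 : q = 13
  · subst h13
    obtain ⟨⟨P, hP1, hP2⟩⟩ := (Ideal.span {((13 : ℕ) : ℤ)}).nonempty_primesOver (S := 𝓞 K)
    refine ⟨P, ⟨hP1, hP2⟩, Or.inr ?_⟩
    rw [IsCyclotomicExtension.Rat.eq_span_zeta_sub_one_of_liesOver' 13 K hζ P]
    exact ⟨⟨_, rfl⟩⟩
  by_cases h3 : q = 3
  · subst h3
    obtain ⟨P, hP, hPp⟩ := h68_prime_3 hζ
    exact ⟨P, hP, Or.inr hPp⟩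
  by_cases h53 : q = 53
  · subst h53
    obtain ⟨P, hP, hPp⟩ := h68_prime_53 hζ
    exact ⟨P, hP, Or.inr hPp⟩
  by_cases h79 : q = 79
  · subst h79
    obtain ⟨P, hP, hPp⟩ := h68_prime_79 hζ
    exact ⟨P, hP, Or.inr hPp⟩
  by_cases h131 : q = 131
  · subst h131
    obtain ⟨P, hP, hPp⟩ := h68_prime_131 hζ
    exact ⟨P, hP, Or.inr hPp⟩
  by_cases h157 : q = 157
  · subst h157
    obtain ⟨P, hP, hPp⟩ := h68_prime_157 hζ
    exact ⟨P, hP, Or.inr hPp⟩
  obtain ⟨⟨P, hP1, hP2⟩⟩ := (Ideal.span {(q : ℤ)}).nonempty_primesOver (S := 𝓞 K)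
  refine ⟨P, ⟨hP1, hP2⟩, Or.inl ?_⟩
  have hnd : ¬ q ∣ 13 := by
    intro h
    exact h13 ((Nat.prime_dvd_prime_iff_eq hqp (by norm_num)).mp h)
  rw [IsCyclotomicExtension.Rat.inertiaDeg_eq_of_not_dvd q K P hnd]
  exact lt_of_le_of_lt hM (h68_pow_orderOf_gt q hqp hq306 h13 ⟨h3, h53, h79, h131, h157⟩)

end Fermat.Agent.S10
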