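import Mathlib

/-!
# `ℤ[ζ₇]` is a principal ideal domain

Helper for S10 (route: classical FLT for exponents `5, 7, 13`).  The Minkowski bound of `ℚ(ζ₇)`
is `< 5`, and the primes `2, 3` have inertia degree `3, 6` in `ℚ(ζ₇)`.
-/

open NumberField Polynomial Ideal

namespace Fermat.Agent.S10.PID7

variable (K : Type*) [Field K] [NumberField K]

section Minkowski

open InfinitePlace Nat Real

/-- The Minkowski bound of `ℚ(ζ₇)` is `< 5`. -/
theorem minkowski_seven_lt [IsCyclotomicExtension {7} ℚ K] :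
    (4 / π) ^ nrComplexPlaces K *
      ((Module.finrank ℚ K)! / (Module.finrank ℚ K) ^ (Module.finrank ℚ K) * √|discr K|) < 5 := by
  have : Fact (Nat.Prime 7) := ⟨by norm_num⟩
  rw [IsCyclotomicExtension.Rat.discr_prime 7 K, IsCyclotomicExtension.finrank (n := 7) K
    (cyclotomic.irreducible_rat (by simp)),
    IsCyclotomicExtension.Rat.nrComplexPlaces_eq_totient_div_two 7,
    totient_prime (by norm_num : Nat.Prime 7)]
  have h6 : (6 : ℕ)! = 720 := by decide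
  simp only [Nat.add_one_sub_one, Nat.reduceSub, Nat.reduceDiv, h6]
  have hd : |(((-1 : ℤ) ^ 3 * ((7 : ℕ) : ℤ) ^ 5 : ℤ) : ℝ)| = 7 ^ 5 := by norm_num
  rw [hd]
  have hs : √((7 : ℝ) ^ 5) ≤ 130 := by
    rw [Real.sqrt_le_iff]
    constructor <;> norm_num
  have hπ : (4 / π) ^ 3 ≤ (4 / 3.14) ^ 3 := by
    have := Real.pi_gt_d2
    gcongr
  calc (4 / π) ^ 3 * (((720 : ℕ) : ℝ) / ((6 : ℕ) : ℝ) ^ 6 * √((7 : ℝ) ^ 5))
      ≤ (4 / 3.14) ^ 3 * (((720 : ℕ) : ℝ) / ((6 : ℕ) : ℝ) ^ 6 * 130) := by gcongr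
    _ < 5 := by norm_num

theorem floor_minkowski_seven_le [IsCyclotomicExtension {7} ℚ K] :
    ⌊(4 / π) ^ nrComplexPlaces K *
      ((Module.finrank ℚ K)! / (Module.finrank ℚ K) ^ (Module.finrank ℚ K) * √|discr K|)⌋₊ ≤ 4 := by
  have h := minkowski_seven_lt K
  have : ⌊(4 / π) ^ nrComplexPlaces K *
      ((Module.finrank ℚ K)! / (Module.finrank ℚ K) ^ (Module.finrank ℚ K) * √|discr K|)⌋₊ < 5 := by
    rw [Nat.floor_lt (by positivity)]
    exact_mod_cast h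
  omega

end Minkowski

theorem small_primes_orderOf_aux_seven :
    ∀ p ∈ Finset.range 5, p.Prime →
      ∃ m ∈ Finset.range 4, 4 < p ^ m ∧ ((p : ℕ) : ZMod 7) ≠ 0 ∧
        ∀ k ∈ Finset.range m, 0 < k → ((p : ℕ) : ZMod 7) ^ k ≠ 1 := by
  decide

theorem le_orderOf_of_forall_pow_ne_one_seven {x : ZMod 7} (hx : x ≠ 0) (m : ℕ)
    (h : ∀ k ∈ Finset.range m, 0 < k → x ^ k ≠ 1) : m ≤ orderOf x := by
  have : Fact (Nat.Prime 7) := ⟨by norm_num⟩
  by_contra hlt
  rw [not_le] at hlt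
  have hfin : IsOfFinOrder x := by
    rw [isOfFinOrder_iff_pow_eq_one]
    exact ⟨6, by norm_num, ZMod.pow_card_sub_one_eq_one hx⟩
  exact h (orderOf x) (Finset.mem_range.mpr hlt) hfin.orderOf_pos (pow_orderOf_eq_one x)

/-- If `IsCyclotomicExtension {7} ℚ K` then `𝓞 K` is a principal ideal domain. -/
theorem seven_pid [IsCyclotomicExtension {7} ℚ K] : IsPrincipalIdealRing (𝓞 K) := by
  have : Fact (Nat.Prime 7) := ⟨by norm_num⟩
  have : IsGalois ℚ K := IsCyclotomicExtension.isGalois {7} ℚ K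
  apply RingOfIntegers.isPrincipalIdealRing_of_isPrincipal_of_lt_or_isPrincipal_of_mem_primesOver_of_mem_Icc
  intro p hp hpp
  have hM := floor_minkowski_seven_le K
  rw [Finset.mem_Icc] at hp
  have hp4 : p ≤ 4 := hp.2.trans hM
  have : Fact p.Prime := ⟨hpp⟩
  have hprime : (Ideal.span {(p : ℤ)}).IsPrime :=
    (Ideal.span_singleton_prime (by exact_mod_cast hpp.ne_zero)).mpr
      (Nat.prime_iff_prime_int.mp hpp)
  obtain ⟨⟨P, hP1, hP2⟩⟩ := (Ideal.span {(p : ℤ)}).nonempty_primesOver (S := 𝓞 K)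
  refine ⟨P, ⟨hP1, hP2⟩, Or.inl ?_⟩
  have hndvd : ¬ p ∣ 7 := by
    intro h
    rcases (Nat.dvd_prime (by norm_num : Nat.Prime 7)).mp h with h1 | h1
    · exact hpp.one_lt.ne' h1
    · omega
  rw [IsCyclotomicExtension.Rat.inertiaDeg_eq_of_not_dvd p K P (m := 7) hndvd]
  obtain ⟨m, -, hm, hne, hk⟩ :=
    small_primes_orderOf_aux_seven p (Finset.mem_range.mpr (by omega)) hpp
  have hle := le_orderOf_of_forall_pow_ne_one_seven hne m hk
  calc ⌊_⌋₊ ≤ 4 := hM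
    _ < p ^ m := hm
    _ ≤ p ^ orderOf ((p : ℕ) : ZMod 7) := Nat.pow_le_pow_right hpp.pos hle

end Fermat.Agent.S10.PID7

namespace Fermat.Agent.S10

/-- `ℤ[ζ₇]` is a PID. -/
theorem seven_pid (K : Type*) [Field K] [NumberField K] [IsCyclotomicExtension {7} ℚ K] :
    IsPrincipalIdealRing (NumberField.RingOfIntegers K) :=
  PID7.seven_pid K

end Fermat.Agent.S10
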