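import Mathlib
import Fermat.Agent.S11.FLT11
import Fermat.Agent.S11.KummerLemma5
import Fermat.Agent.S11.KummerLemma7
import Fermat.Agent.S11.KummerLemma13
import Fermat.Agent.S10.PID7
import Fermat.Agent.S10.PID13

/-!
# Fermat's Last Theorem for the exponents 5, 7 and 13

Assembly of the classical proof: case 1 by Sophie Germain's theorem (with an auxiliary prime),
case 2 by Kummer's descent in `ℤ[ζ_p]`, which is a principal ideal domain in which Kummer's
lemma holds.
-/

set_option autoImplicit false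

open NumberField

namespace Fermat.Agent.S10

open Fermat.Agent.S11

/-- Fermat's Last Theorem for exponent `5` over `ℤ`. -/
theorem flt_five : FermatLastTheoremWith ℤ 5 := by
  have : Fact (Nat.Prime 5) := ⟨by norm_num⟩
  refine flt_of_caseOne_of_caseTwo (by norm_num) (by norm_num)
    (fun h => caseOne (Or.inl rfl) h) ?_
  intro a b c hab hc hpc h
  have : IsCyclotomicExtension {5} ℚ (CyclotomicField 5 ℚ) :=
    CyclotomicField.isCyclotomicExtension 5 ℚ
  have : IsPrincipalIdealRing (𝓞 (CyclotomicField 5 ℚ)) :=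
    IsCyclotomicExtension.Rat.five_pid (CyclotomicField 5 ℚ)
  exact flt11_caseTwo_of_pid_of_kummer (p := 5) (by norm_num) (CyclotomicField 5 ℚ)
    (kummerLemma_five (CyclotomicField 5 ℚ)) hab hc hpc h

/-- Fermat's Last Theorem for exponent `7` over `ℤ`. -/
theorem flt_seven : FermatLastTheoremWith ℤ 7 := by
  have : Fact (Nat.Prime 7) := ⟨by norm_num⟩
  refine flt_of_caseOne_of_caseTwo (by norm_num) (by norm_num)
    (fun h => caseOne (Or.inr (Or.inl rfl)) h) ?_
  intro a b c hab hc hpc h
  have : IsCyclotomicExtension {7} ℚ (CyclotomicField 7 ℚ) :=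
    CyclotomicField.isCyclotomicExtension 7 ℚ
  have : IsPrincipalIdealRing (𝓞 (CyclotomicField 7 ℚ)) := seven_pid (CyclotomicField 7 ℚ)
  exact flt11_caseTwo_of_pid_of_kummer (p := 7) (by norm_num) (CyclotomicField 7 ℚ)
    (kummerLemma_seven (CyclotomicField 7 ℚ)) hab hc hpc h

/-- Fermat's Last Theorem for exponent `13` over `ℤ`. -/
theorem flt_thirteen : FermatLastTheoremWith ℤ 13 := by
  have : Fact (Nat.Prime 13) := ⟨by norm_num⟩
  refine flt_of_caseOne_of_caseTwo (by norm_num) (by norm_num)
    (fun h => caseOne (Or.inr (Or.inr (Or.inr rfl))) h) ?_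
  intro a b c hab hc hpc h
  have : IsCyclotomicExtension {13} ℚ (CyclotomicField 13 ℚ) :=
    CyclotomicField.isCyclotomicExtension 13 ℚ
  have : IsPrincipalIdealRing (𝓞 (CyclotomicField 13 ℚ)) := thirteen_pid (CyclotomicField 13 ℚ)
  exact flt11_caseTwo_of_pid_of_kummer (p := 13) (by norm_num) (CyclotomicField 13 ℚ)
    (kummerLemma_thirteen (CyclotomicField 13 ℚ)) hab hc hpc h

end Fermat.Agent.S10
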