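import Mathlib

/-!
# Independence of cyclotomic units modulo `p`: the generic reduction

Generic part of module C2 of the classical FLT project (used for `p = 5, 7`):

* `redHom hζ : 𝓞 K →+* (ZMod p)[X] ⧸ (X ^ (p - 1))`, `ζ ↦ 1 + X`;
* `X_pow_dvd_of_dvd`: if `p ∣ a` in `𝓞 K` and `redHom a = mk f` then `X ^ (p - 1) ∣ f`;
* the logarithmic derivative bookkeeping `logDerivPair_pow`, `logDerivPair_mul`;
* `X_pow_dvd_of_logDerivPair`: if `X ^ (m + 1) ∣ G - C n`, `G' * b = G * a` and `X ∤ G`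
  then `X ^ m ∣ a`.
-/

set_option autoImplicit false

open NumberField Polynomial

namespace Fermat.Agent.S10.UnitsIndep

section Reduction

variable {p : ℕ} [hp : Fact p.Prime] {K : Type*} [Field K] [NumberField K]
  [IsCyclotomicExtension {p} ℚ K] {ζ : K}

/-- In characteristic `p`, `Φ_p (1 + X) = X ^ (p - 1)`. -/
theorem cyclotomic_comp_one_add_X :
    (cyclotomic p (ZMod p)).comp (1 + X) = (X : (ZMod p)[X]) ^ (p - 1) := by
  have h := congrArg (fun f : (ZMod p)[X] => f.comp (1 + X))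
    (cyclotomic_prime_mul_X_sub_one (ZMod p) p)
  simp only [mul_comp, sub_comp, X_comp, one_comp, pow_comp, add_sub_cancel_left] at h
  have h2 : ((1 : (ZMod p)[X]) + X) ^ p = 1 + X ^ p := by
    rw [add_pow_char, one_pow]
  rw [h2, add_sub_cancel_left] at h
  have h3 : (X : (ZMod p)[X]) ^ p = X ^ (p - 1) * X := by
    rw [← pow_succ, Nat.sub_add_cancel hp.out.one_le]
  rw [h3] at h
  exact mul_right_cancel₀ X_ne_zero h

theorem aeval_minpoly_gen_eq_zero (hζ : IsPrimitiveRoot ζ p) :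
    aeval (Ideal.Quotient.mk (Ideal.span {(X : (ZMod p)[X]) ^ (p - 1)}) (1 + X))
      (minpoly ℤ hζ.integralPowerBasis.gen) = 0 := by
  have hmin : minpoly ℤ hζ.integralPowerBasis.gen = cyclotomic p ℤ := by
    rw [hζ.integralPowerBasis_gen, ← RingOfIntegers.minpoly_coe,
      cyclotomic_eq_minpoly hζ hp.out.pos]
    rfl
  rw [hmin, aeval_def, ← eval_map, map_cyclotomic]
  have h1 : eval (Ideal.Quotient.mk (Ideal.span {(X : (ZMod p)[X]) ^ (p - 1)}) (1 + X))
      (cyclotomic p ((ZMod p)[X] ⧸ Ideal.span {(X : (ZMod p)[X]) ^ (p - 1)})) =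
      Ideal.Quotient.mk (Ideal.span {(X : (ZMod p)[X]) ^ (p - 1)})
        ((cyclotomic p (ZMod p)).comp (1 + X)) := by
    rw [comp, hom_eval₂,
      ← map_cyclotomic p ((Ideal.Quotient.mk (Ideal.span {(X : (ZMod p)[X]) ^ (p - 1)})).comp
        (C : ZMod p →+* (ZMod p)[X])), eval_map]
  rw [h1, cyclotomic_comp_one_add_X, Ideal.Quotient.eq_zero_iff_mem]
  exact Ideal.subset_span rfl

/-- The reduction map `𝓞 K → (ZMod p)[X] ⧸ (X ^ (p - 1))` sending `ζ` to `1 + X`. -/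
noncomputable def redHom (hζ : IsPrimitiveRoot ζ p) :
    𝓞 K →+* (ZMod p)[X] ⧸ Ideal.span {(X : (ZMod p)[X]) ^ (p - 1)} :=
  (hζ.integralPowerBasis.lift _ (aeval_minpoly_gen_eq_zero hζ)).toRingHom

theorem redHom_zeta (hζ : IsPrimitiveRoot ζ p) :
    redHom hζ hζ.toInteger =
      Ideal.Quotient.mk (Ideal.span {(X : (ZMod p)[X]) ^ (p - 1)}) (1 + X) := by
  have := hζ.integralPowerBasis.lift_gen _ (aeval_minpoly_gen_eq_zero hζ)
  rw [hζ.integralPowerBasis_gen] at this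
  exact this

theorem redHom_natCast_self (hζ : IsPrimitiveRoot ζ p) : redHom hζ (p : 𝓞 K) = 0 := by
  rw [map_natCast, ← map_natCast (Ideal.Quotient.mk (Ideal.span {(X : (ZMod p)[X]) ^ (p - 1)})),
    ← C_eq_natCast, ZMod.natCast_self, map_zero, map_zero]

/-- If `p ∣ a` in `𝓞 K` and the reduction of `a` is represented by `f`, then
`X ^ (p - 1) ∣ f`. -/
theorem X_pow_dvd_of_dvd (hζ : IsPrimitiveRoot ζ p) {a : 𝓞 K} {f : (ZMod p)[X]}
    (hf : redHom hζ a = Ideal.Quotient.mk (Ideal.span {(X : (ZMod p)[X]) ^ (p - 1)}) f)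
    (ha : (p : 𝓞 K) ∣ a) : (X : (ZMod p)[X]) ^ (p - 1) ∣ f := by
  obtain ⟨b, rfl⟩ := ha
  rw [map_mul, redHom_natCast_self, zero_mul] at hf
  rw [← Ideal.mem_span_singleton, ← Ideal.Quotient.eq_zero_iff_mem]
  exact hf.symm

end Reduction

section LogDeriv

variable {R : Type*} [CommRing R]

/-- Logarithmic derivative of a power: `(c ^ e)' * c = c ^ e * (e * c')`. -/
theorem logDerivPair_pow (c : R[X]) (e : ℕ) :
    derivative (c ^ e) * c = c ^ e * ((e : R[X]) * derivative c) := by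
  rcases e with _ | e
  · simp
  · rw [derivative_pow, Nat.add_sub_cancel, pow_succ, C_eq_natCast]
    ring

/-- Logarithmic derivative of a product. -/
theorem logDerivPair_mul {g₁ g₂ a₁ a₂ b₁ b₂ : R[X]} (h₁ : derivative g₁ * b₁ = g₁ * a₁)
    (h₂ : derivative g₂ * b₂ = g₂ * a₂) :
    derivative (g₁ * g₂) * (b₁ * b₂) = (g₁ * g₂) * (a₁ * b₂ + a₂ * b₁) := by
  rw [derivative_mul]
  linear_combination (g₂ * b₂) * h₁ + (g₁ * b₁) * h₂

variable [IsDomain R]

/-- If `X ^ (m + 1) ∣ G - C n`, the logarithmic derivative of `G` is `a / b` and `X ∤ G`,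
then `X ^ m ∣ a`. -/
theorem X_pow_dvd_of_logDerivPair {G a b : R[X]} {n : R} {m : ℕ}
    (hG : (X : R[X]) ^ (m + 1) ∣ G - C n) (hab : derivative G * b = G * a)
    (hG0 : G.coeff 0 ≠ 0) : (X : R[X]) ^ m ∣ a := by
  have h1 : (X : R[X]) ^ m ∣ derivative G := by
    obtain ⟨q, hq⟩ := hG
    have : derivative G = derivative (G - C n) := by simp
    rw [this, hq, derivative_mul, derivative_X_pow, Nat.add_sub_cancel, pow_succ]
    exact dvd_add ⟨C ((m + 1 : ℕ) : R) * q, by ring⟩ ⟨X * derivative q, by ring⟩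
  have h2 : (X : R[X]) ^ m ∣ G * a := by
    rw [← hab]
    exact Dvd.dvd.mul_right h1 b
  exact prime_X.pow_dvd_of_dvd_mul_left m (by rwa [X_dvd_iff]) h2

end LogDeriv

end Fermat.Agent.S10.UnitsIndep
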