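import Mathlib
import Fermat.Agent.S10.UnitsIndepGen

/-!
# Independence of the cyclotomic units `ζ, 1 + ζ` of `ℚ(ζ₅)` modulo `5` and rational integers
-/

set_option autoImplicit false

open NumberField Polynomial

namespace Fermat.Agent.S10

namespace UnitsIndep

theorem one_add_one_ne_zero_five : (1 + 1 : ZMod 5) ≠ 0 := by decide

theorem linear_system_five : ∀ x y : ZMod 5, 2 * x + y = 0 → x + y = 0 → x = 0 ∧ y = 0 := by
  decide

end UnitsIndep

open UnitsIndep in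
/-- (C2, `p = 5`) If `ζ ^ e₀ * (1 + ζ) ^ e₁` is congruent to a rational integer modulo `5`,
then `5 ∣ e₀` and `5 ∣ e₁`. -/
theorem cyclotomic_units_indep_five (K : Type*) [Field K] [NumberField K]
    [IsCyclotomicExtension {5} ℚ K] {ζ : K} (hζ : IsPrimitiveRoot ζ 5)
    (e : Fin 2 → ℕ) (n : ℤ)
    (h : (5 : 𝓞 K) ∣ hζ.toInteger ^ e 0 * (∏ k : Fin 1, (∑ j ∈ Finset.range (k.val + 2),
      hζ.toInteger ^ j) ^ e k.succ) - (n : 𝓞 K)) :
    ∀ i, 5 ∣ e i := by
  have : Fact (Nat.Prime 5) := ⟨by norm_num⟩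
  set G : (ZMod 5)[X] := (1 + X) ^ e 0 * (1 + (1 + X)) ^ e 1 with hG
  have hred : redHom hζ (hζ.toInteger ^ e 0 * (∏ k : Fin 1, (∑ j ∈ Finset.range (k.val + 2),
      hζ.toInteger ^ j) ^ e k.succ) - (n : 𝓞 K)) =
      Ideal.Quotient.mk (Ideal.span {(X : (ZMod 5)[X]) ^ (5 - 1)}) (G - C (n : ZMod 5)) := by
    simp only [Fin.prod_univ_one, Fin.val_zero, zero_add, Finset.sum_range_succ,
      Finset.range_zero, Finset.sum_empty, pow_zero, pow_one, map_sub, map_mul, map_pow, map_add,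
      map_one, redHom_zeta, map_intCast, hG]
    rfl
  have hdvd : (X : (ZMod 5)[X]) ^ (3 + 1) ∣ G - C (n : ZMod 5) :=
    X_pow_dvd_of_dvd hζ hred (by exact_mod_cast h)
  have hpair := logDerivPair_mul (logDerivPair_pow (1 + X : (ZMod 5)[X]) (e 0))
    (logDerivPair_pow (1 + (1 + X) : (ZMod 5)[X]) (e 1))
  have hG0 : G.coeff 0 ≠ 0 := by
    rw [coeff_zero_eq_eval_zero, hG]
    simp only [eval_mul, eval_pow, eval_add, eval_one, eval_X, add_zero, one_pow, one_mul]
    exact pow_ne_zero _ one_add_one_ne_zero_five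
  have ha := X_pow_dvd_of_logDerivPair hdvd hpair hG0
  have hnorm : ((e 0 : (ZMod 5)[X]) * derivative (1 + X : (ZMod 5)[X]) * (1 + (1 + X)) +
      (e 1 : (ZMod 5)[X]) * derivative (1 + (1 + X) : (ZMod 5)[X]) * (1 + X)) =
      C (2 * (e 0 : ZMod 5) + (e 1 : ZMod 5)) + C ((e 0 : ZMod 5) + (e 1 : ZMod 5)) * X := by
    simp only [derivative_one, derivative_X, zero_add, map_add, map_mul,
      map_natCast, C_ofNat]
    ring
  rw [hnorm, X_pow_dvd_iff] at ha
  have h0 := ha 0 (by norm_num)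
  have h1 := ha 1 (by norm_num)
  simp only [coeff_add, coeff_C_mul, coeff_X_zero, mul_zero, add_zero, coeff_C,
    coeff_X_one, mul_one] at h0 h1
  simp only [one_ne_zero, if_false, zero_add] at h1
  obtain ⟨hx, hy⟩ := linear_system_five _ _ h0 h1
  intro i
  fin_cases i
  · exact (ZMod.natCast_eq_zero_iff _ _).mp hx
  · exact (ZMod.natCast_eq_zero_iff _ _).mp hy

end Fermat.Agent.S10
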