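import Mathlib
import Fermat.Agent.S10.UnitsIndepGen

/-!
# Independence of the cyclotomic units `ζ, 1 + ζ, 1 + ζ + ζ²` of `ℚ(ζ₇)` modulo `7` and
rational integers
-/

set_option autoImplicit false

open NumberField Polynomial

namespace Fermat.Agent.S10

namespace UnitsIndep

theorem one_add_one_ne_zero_seven : (1 + 1 : ZMod 7) ≠ 0 := by decide

theorem one_add_one_add_one_ne_zero_seven : (1 + 1 + 1 : ZMod 7) ≠ 0 := by decide

theorem linear_system_seven : ∀ x y z : ZMod 7, 6 * x + 3 * y + 6 * z = 0 →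
    9 * x + 6 * y + 13 * z = 0 → x + y + 2 * z = 0 → x = 0 ∧ y = 0 ∧ z = 0 := by
  decide

end UnitsIndep

open UnitsIndep in
/-- (C2, `p = 7`) If `ζ ^ e₀ * (1 + ζ) ^ e₁ * (1 + ζ + ζ²) ^ e₂` is congruent to a rational
integer modulo `7`, then `7` divides `e₀, e₁, e₂`. -/
theorem cyclotomic_units_indep_seven (K : Type*) [Field K] [NumberField K]
    [IsCyclotomicExtension {7} ℚ K] {ζ : K} (hζ : IsPrimitiveRoot ζ 7)
    (e : Fin 3 → ℕ) (n : ℤ)
    (h : (7 : 𝓞 K) ∣ hζ.toInteger ^ e 0 * (∏ k : Fin 2, (∑ j ∈ Finset.range (k.val + 2),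
      hζ.toInteger ^ j) ^ e k.succ) - (n : 𝓞 K)) :
    ∀ i, 7 ∣ e i := by
  have : Fact (Nat.Prime 7) := ⟨by norm_num⟩
  set G : (ZMod 7)[X] :=
    (1 + X) ^ e 0 * ((1 + (1 + X)) ^ e 1 * (1 + (1 + X) + (1 + X) ^ 2) ^ e 2) with hG
  have hred : redHom hζ (hζ.toInteger ^ e 0 * (∏ k : Fin 2, (∑ j ∈ Finset.range (k.val + 2),
      hζ.toInteger ^ j) ^ e k.succ) - (n : 𝓞 K)) =
      Ideal.Quotient.mk (Ideal.span {(X : (ZMod 7)[X]) ^ (7 - 1)}) (G - C (n : ZMod 7)) := by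
    simp only [Fin.prod_univ_two, Fin.val_zero, Fin.val_one, zero_add, Finset.sum_range_succ,
      Finset.range_zero, Finset.sum_empty, pow_zero, pow_one, map_sub, map_mul, map_pow, map_add,
      map_one, redHom_zeta, map_intCast, hG]
    rfl
  have hdvd : (X : (ZMod 7)[X]) ^ (5 + 1) ∣ G - C (n : ZMod 7) :=
    X_pow_dvd_of_dvd hζ hred (by exact_mod_cast h)
  have hpair := logDerivPair_mul (logDerivPair_pow (1 + X : (ZMod 7)[X]) (e 0))
    (logDerivPair_mul (logDerivPair_pow (1 + (1 + X) : (ZMod 7)[X]) (e 1))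
      (logDerivPair_pow (1 + (1 + X) + (1 + X) ^ 2 : (ZMod 7)[X]) (e 2)))
  have hG0 : G.coeff 0 ≠ 0 := by
    rw [coeff_zero_eq_eval_zero, hG]
    simp only [eval_mul, eval_pow, eval_add, eval_one, eval_X, add_zero, one_pow, one_mul]
    exact mul_ne_zero (pow_ne_zero _ one_add_one_ne_zero_seven)
      (pow_ne_zero _ one_add_one_add_one_ne_zero_seven)
  have ha := X_pow_dvd_of_logDerivPair hdvd hpair hG0
  have hnorm : ((e 0 : (ZMod 7)[X]) * derivative (1 + X : (ZMod 7)[X]) *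
        ((1 + (1 + X)) * (1 + (1 + X) + (1 + X) ^ 2)) +
      ((e 1 : (ZMod 7)[X]) * derivative (1 + (1 + X) : (ZMod 7)[X]) *
          (1 + (1 + X) + (1 + X) ^ 2) +
        (e 2 : (ZMod 7)[X]) * derivative (1 + (1 + X) + (1 + X) ^ 2 : (ZMod 7)[X]) *
          (1 + (1 + X))) * (1 + X)) =
      C (6 * (e 0 : ZMod 7) + 3 * (e 1 : ZMod 7) + 6 * (e 2 : ZMod 7)) +
      C (9 * (e 0 : ZMod 7) + 6 * (e 1 : ZMod 7) + 13 * (e 2 : ZMod 7)) * X +
      C (5 * (e 0 : ZMod 7) + 4 * (e 1 : ZMod 7) + 9 * (e 2 : ZMod 7)) * X ^ 2 +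
      C ((e 0 : ZMod 7) + (e 1 : ZMod 7) + 2 * (e 2 : ZMod 7)) * X ^ 3 := by
    simp only [derivative_one, derivative_X, derivative_pow, zero_add, map_add,
      map_mul, map_natCast, C_ofNat, Nat.cast_ofNat, pow_one, Nat.add_one_sub_one]
    ring
  rw [hnorm, X_pow_dvd_iff] at ha
  have h0 := ha 0 (by norm_num)
  have h1 := ha 1 (by norm_num)
  have h3 := ha 3 (by norm_num)
  simp only [coeff_add, coeff_C_mul, coeff_C, coeff_X_pow, coeff_X] at h0 h1 h3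
  norm_num at h0 h1 h3
  obtain ⟨hx, hy, hz⟩ := linear_system_seven _ _ _ h0 h1 h3
  intro i
  fin_cases i
  · exact (ZMod.natCast_eq_zero_iff _ _).mp hx
  · exact (ZMod.natCast_eq_zero_iff _ _).mp hy
  · exact (ZMod.natCast_eq_zero_iff _ _).mp hz

end Fermat.Agent.S10
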